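import Fermat.Agent.ClassField.Artin
import Fermat.Agent.EuclideanLenstra.Criterion

/-!
# Subfields of prime degree of `ℚ(ζ_p)` and the norm

The prime over `p` has norm `p`, so norms are `ℓ`-th powers modulo `p` in its residue classes; a
prime outside the kernel of the Artin map divides norms to exponents divisible by `ℓ`. So
`p = a + b` with `a` an `ℓ`-th power modulo `p`, and `a`, `b` each exactly divisible by such a
prime, rules out a Euclidean norm.
-/

set_option autoImplicit false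
set_option linter.style.haveILetI false

noncomputable section

namespace FA.NormEuclideanCyclic

open NumberField Ideal
open FA.ClassField (artHom artHom_surjective)
open scoped Pointwise

variable {p : ℕ} [hp : Fact p.Prime] (K : Type*) [Field K] [NumberField K]
  [IsCyclotomicExtension {p} ℚ K] [IsAbelianGalois ℚ K]
  (F : IntermediateField ℚ K) [IsGalois ℚ F]

omit [IsGalois ℚ F] in
theorem inertiaDeg_above_p :
    (Ideal.span {(p : ℤ)}).inertiaDegIn (𝓞 F) = 1 ∧
      ((Ideal.span {(p : ℤ)}).primesOver (𝓞 F)).ncard = 1 := by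
  have hn : p = p ^ 1 * 1 := by simp
  have hm : ¬ p ∣ 1 := hp.out.not_dvd_one
  obtain ⟨hf, hg⟩ := FA.AbelianZeta.decomposition p K hn hm F
  have : Subsingleton ((ZMod 1)ˣ ⧸ FA.AbelianZeta.fieldGroup p K hn F) :=
    Quotient.mk_surjective.subsingleton
  rw [Subsingleton.elim (FA.AbelianZeta.frobClass p K hn hm F) 1, orderOf_one] at hf hg
  exact ⟨hf, by simpa using hg⟩

theorem exists_totallyRamified :
    ∃ P : Ideal (𝓞 F), P.IsPrime ∧ Ideal.absNorm P = p ∧ (p : 𝓞 F) ∈ P ∧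
      ∀ σ : Gal(F/ℚ), σ • P = P := by
  obtain ⟨hf, hg⟩ := inertiaDeg_above_p (p := p) K F
  haveI : (Ideal.span {(p : ℤ)}).IsMaximal := Ideal.IsPrime.isMaximal
    ((Ideal.span_singleton_prime (by exact_mod_cast hp.out.ne_zero)).mpr
      (Nat.prime_iff_prime_int.mp hp.out))
    (by simp [hp.out.ne_zero])
  obtain ⟨⟨P, hP₁, hP₂⟩⟩ := (Ideal.span {(p : ℤ)}).nonempty_primesOver (S := 𝓞 F)
  rw [Ideal.inertiaDegIn_eq_inertiaDeg (Ideal.span {(p : ℤ)}) P Gal(F/ℚ)] at hf
  refine ⟨P, hP₁, ?_, ?_, fun σ => ?_⟩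
  · rw [← Ideal.absNorm_pow_inertiaDeg (Ideal.span {(p : ℤ)}) P, hf, pow_one,
      Ideal.absNorm_span_singleton, Algebra.norm_self, MonoidHom.id_apply, Int.natAbs_natCast]
  · exact_mod_cast (Ideal.liesOver_span_iff hP₁.ne_top (Nat.prime_iff_prime_int.mp hp.out)).1 hP₂
  · obtain ⟨Q, hQ⟩ := Set.ncard_eq_one.1 hg
    have h1 : P ∈ (Ideal.span {(p : ℤ)}).primesOver (𝓞 F) := ⟨hP₁, hP₂⟩
    have h2 : σ • P ∈ (Ideal.span {(p : ℤ)}).primesOver (𝓞 F) := ⟨inferInstance, inferInstance⟩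
    rw [hQ] at h1 h2
    exact h2.trans h1.symm

omit [IsCyclotomicExtension {p} ℚ K] [IsAbelianGalois ℚ K] in
/-- Norms are `ℓ`-th powers of the residue modulo the prime over `p`. -/
theorem norm_modEq_pow {P : Ideal (𝓞 F)} (hP : P.IsPrime) (hpP : (p : 𝓞 F) ∈ P)
    (hfix : ∀ σ : Gal(F/ℚ), σ • P = P) {x : 𝓞 F} {c : ℤ} (hx : x - (c : 𝓞 F) ∈ P) :
    (p : ℤ) ∣ Algebra.norm ℤ x - c ^ Module.finrank ℚ F := by
  classical
  have hmem : ((Algebra.norm ℤ x : ℤ) : 𝓞 F) - (c : 𝓞 F) ^ Module.finrank ℚ F ∈ P := by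
    have hnorm : ((Algebra.norm ℤ x : ℤ) : 𝓞 F) = ∏ σ : Gal(F/ℚ), σ • x := by
      refine RingOfIntegers.ext ?_
      have h := Algebra.norm_eq_prod_automorphisms (K := ℚ) (x : F)
      rw [← Algebra.coe_norm_int x, map_intCast] at h
      rw [RingOfIntegers.coe_eq_algebraMap, map_intCast, h]
      exact (map_prod (algebraMap (𝓞 F) F) (fun σ : Gal(F/ℚ) => σ • x) Finset.univ).symm
    rw [← Ideal.Quotient.eq_zero_iff_mem, map_sub, hnorm, map_prod, map_pow, sub_eq_zero]
    rw [Finset.prod_congr rfl fun σ _ => show Ideal.Quotient.mk P (σ • x) =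
        Ideal.Quotient.mk P (c : 𝓞 F) by
      rw [Ideal.Quotient.eq]
      have h := Ideal.smul_mem_pointwise_smul σ _ P hx
      rw [hfix σ, smul_sub] at h
      convert h using 2
      exact (map_intCast (MulSemiringAction.toRingHom Gal(F/ℚ) (𝓞 F) σ) c).symm]
    rw [Finset.prod_const, Finset.card_univ, ← Nat.card_eq_fintype_card,
      IsGalois.card_aut_eq_finrank]
  haveI : P.LiesOver (Ideal.span {(p : ℤ)}) :=
    (Ideal.liesOver_span_iff hP.ne_top (Nat.prime_iff_prime_int.mp hp.out)).mpr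
      (by exact_mod_cast hpP)
  have h2 : Algebra.norm ℤ x - c ^ Module.finrank ℚ F ∈ P.under ℤ := by
    refine Ideal.mem_comap.2 ?_
    rw [eq_intCast]
    push_cast
    exact hmem
  rwa [← Ideal.over_def P (Ideal.span {(p : ℤ)}), Ideal.mem_span_singleton] at h2

omit hp [IsCyclotomicExtension {p} ℚ K] [IsAbelianGalois ℚ K] [IsGalois ℚ F] in
/-- A prime dividing the norm of a prime ideal lies in it. -/
theorem mem_of_dvd_absNorm {P : Ideal (𝓞 F)} (hP : P.IsPrime) (hP0 : P ≠ ⊥) {q : ℕ} (hq : q.Prime)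
    (hdvd : q ∣ Ideal.absNorm P) : (q : 𝓞 F) ∈ P := by
  have : Finite (𝓞 F ⧸ P) := Ideal.finiteQuotientOfFreeOfNeBot P hP0
  have := Fact.mk hq
  rw [Ideal.absNorm_apply, Submodule.cardQuot_apply] at hdvd
  obtain ⟨z, hz⟩ := exists_prime_addOrderOf_dvd_card' (G := 𝓞 F ⧸ P) q hdvd
  have h1 : (q : 𝓞 F ⧸ P) * z = 0 := by rw [← nsmul_eq_mul, ← hz, addOrderOf_nsmul_eq_zero]
  rcases mul_eq_zero.1 h1 with h | h
  · rw [← map_natCast (Ideal.Quotient.mk P), Ideal.Quotient.eq_zero_iff_mem] at h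
    exact h
  · rw [h, addOrderOf_zero] at hz
    exact absurd hz.symm hq.ne_one

/-- An inert prime divides norms to exponents divisible by the degree. -/
theorem dvd_factorization_absNorm {ℓ q : ℕ} (hℓ : ℓ.Prime) (hF : Module.finrank ℚ F = ℓ)
    [hq : Fact q.Prime] (hqp : q.Coprime p)
    (hart : artHom p K F (ZMod.unitOfCoprime q hqp) ≠ 1) :
    ∀ I : Ideal (𝓞 F), I ≠ ⊥ → ℓ ∣ (Ideal.absNorm I).factorization q := by
  have hf : (Ideal.span {(q : ℤ)}).inertiaDegIn (𝓞 F) = ℓ := by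
    rw [(FA.ClassField.card_quotient_norm p K F q hqp).1]
    refine ((Nat.dvd_prime hℓ).1 ?_).resolve_left fun h => hart (orderOf_eq_one_iff.1 h)
    rw [← hF, ← IsGalois.card_aut_eq_finrank]
    exact orderOf_dvd_natCard _
  haveI : (Ideal.span {(q : ℤ)}).IsMaximal := Ideal.IsPrime.isMaximal
    ((Ideal.span_singleton_prime (by exact_mod_cast hq.out.ne_zero)).mpr
      (Nat.prime_iff_prime_int.mp hq.out))
    (by simp [hq.out.ne_zero])
  intro I hI
  induction I using UniqueFactorizationMonoid.induction_on_prime with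
  | h₁ => exact absurd rfl hI
  | h₂ J hJ => rw [Ideal.isUnit_iff.1 hJ, Ideal.absNorm_top]; simp
  | h₃ J P hJ hP ih =>
    have hP' : P.IsPrime := Ideal.isPrime_of_prime hP
    rw [map_mul, Nat.factorization_mul (by rw [Ne, Ideal.absNorm_eq_zero_iff]; exact hP.ne_zero)
      (by rw [Ne, Ideal.absNorm_eq_zero_iff]; exact hJ), Finsupp.add_apply]
    refine dvd_add ?_ (ih hJ)
    by_cases hmem : (q : 𝓞 F) ∈ P
    · haveI : P.LiesOver (Ideal.span {(q : ℤ)}) :=
        (Ideal.liesOver_span_iff hP'.ne_top (Nat.prime_iff_prime_int.mp hq.out)).mpr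
          (by exact_mod_cast hmem)
      rw [Ideal.inertiaDegIn_eq_inertiaDeg (Ideal.span {(q : ℤ)}) P Gal(F/ℚ)] at hf
      rw [← Ideal.absNorm_pow_inertiaDeg (Ideal.span {(q : ℤ)}) P, hf,
        Ideal.absNorm_span_singleton, Algebra.norm_self, MonoidHom.id_apply, Int.natAbs_natCast,
        hq.out.factorization_pow, Finsupp.single_eq_same]
    · rw [Nat.factorization_eq_zero_of_not_dvd
        fun h => hmem (mem_of_dvd_absNorm K F hP' hP.ne_zero hq.out h)]
      exact dvd_zero ℓ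

/-- **The criterion.** -/
theorem not_isNormEuclideanField {ℓ : ℕ} (hℓ : ℓ.Prime) (hF : Module.finrank ℚ F = ℓ)
    {a n q₁ q₂ : ℕ} (ha : 0 < a) (hap : a < p) (han : (a : ZMod p) = (n : ZMod p) ^ ℓ)
    [Fact q₁.Prime] [Fact q₂.Prime] (h₁ : q₁.Coprime p) (h₂ : q₂.Coprime p)
    (hart₁ : artHom p K F (ZMod.unitOfCoprime q₁ h₁) ≠ 1)
    (hart₂ : artHom p K F (ZMod.unitOfCoprime q₂ h₂) ≠ 1)
    (hv₁ : a.factorization q₁ = 1) (hv₂ : (p - a).factorization q₂ = 1) :
    ¬ FA.LenstraEuclid.IsNormEuclideanField F := by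
  intro hE
  obtain ⟨P, hP, hPp, hpP, hfix⟩ := exists_totallyRamified (p := p) K F
  have hpid := hE.isPrincipalIdealRing
  obtain ⟨π, rfl⟩ := hpid.principal P
  have hπ : (Algebra.norm ℤ π).natAbs = p := by
    rw [← Ideal.absNorm_span_singleton]
    exact hPp
  have hπ0 : π ≠ 0 := fun h => by
    rw [h, Algebra.norm_zero, Int.natAbs_zero] at hπ
    exact hp.out.ne_zero hπ.symm
  obtain ⟨c, r, hcr, hlt⟩ := hE.division (n : 𝓞 F) π hπ0
  rw [hπ] at hlt
  have hrn : r - ((n : ℤ) : 𝓞 F) ∈ Submodule.span (𝓞 F) {π} := by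
    rw [Submodule.mem_span_singleton]
    refine ⟨-c, ?_⟩
    rw [Int.cast_natCast, hcr, smul_eq_mul]
    ring
  have hmod := norm_modEq_pow K F hP hpP hfix hrn
  rw [hF] at hmod
  obtain ⟨m, hm⟩ : ∃ m, m = Algebra.norm ℤ r := ⟨_, rfl⟩
  rw [← hm] at hmod hlt
  have hma : (p : ℤ) ∣ m - a := by
    rw [← ZMod.intCast_zmod_eq_zero_iff_dvd] at hmod ⊢
    push_cast at hmod ⊢
    rw [han]
    exact hmod
  have hcases : m = a ∨ m = (a : ℤ) - p := by
    obtain ⟨j, hj⟩ := hma
    have hm1 : |m| < p := by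
      rw [Int.abs_eq_natAbs]
      exact_mod_cast hlt
    rw [abs_lt] at hm1
    have hp0 : (0 : ℤ) < p := by exact_mod_cast hp.out.pos
    have hj1 : j < 1 := Int.lt_of_mul_lt_mul_left (a := (p : ℤ)) (by omega) hp0.le
    have hj2 : -2 < j := Int.lt_of_mul_lt_mul_left (a := (p : ℤ)) (by omega) hp0.le
    rcases (show j = 0 ∨ j = -1 by omega) with rfl | rfl
    · exact Or.inl (by omega)
    · exact Or.inr (by omega)
  have hm0 : m ≠ 0 := by omega
  have hr : Ideal.span {r} ≠ ⊥ := fun h => by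
    rw [Ideal.span_singleton_eq_bot] at h
    rw [h, Algebra.norm_zero] at hm
    exact hm0 hm
  have habs : Ideal.absNorm (Ideal.span {r}) = m.natAbs := by
    rw [Ideal.absNorm_span_singleton, hm]
  rcases hcases with h | h
  · have := dvd_factorization_absNorm K F hℓ hF h₁ hart₁ _ hr
    rw [habs, h, Int.natAbs_natCast, hv₁, Nat.dvd_one] at this
    exact hℓ.ne_one this
  · have := dvd_factorization_absNorm K F hℓ hF h₂ hart₂ _ hr
    rw [habs, show m.natAbs = p - a by omega, hv₂, Nat.dvd_one] at this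
    exact hℓ.ne_one this

end FA.NormEuclideanCyclic

end
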