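import Fermat.Agent.NormEuclideanCyclic.TwoNonresidues
import Mathlib.Analysis.Complex.ExponentialBounds

/-!
# A large prime as a sum of two numbers

For a character `χ` of prime order `ℓ` modulo a large prime `p`, `p = a + b` with `χ a = 1` and `a`,
`b` each exactly divisible by a prime at which `χ` is not `1`: Burgess on a progression.
-/

set_option autoImplicit false

noncomputable section

namespace FA.NormEuclideanCyclic

open Finset Filter FA.BurgessGeneral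
open scoped Topology

theorem inv_four_sqrt_exp_lt : 1 / (4 * Real.sqrt (Real.exp 1)) < 31 / 200 := by
  have h : (163 : ℝ) / 100 < Real.sqrt (Real.exp 1) :=
    Real.lt_sqrt_of_sq_lt (by linarith [Real.exp_one_gt_d9])
  rw [div_lt_iff₀ (by linarith)]
  linarith

theorem factorization_eq_one {q k : ℕ} (hq : q.Prime) (hk : ¬ q ∣ k) :
    (q * k).factorization q = 1 := by
  have hk0 : k ≠ 0 := fun h => hk (by rw [h]; exact dvd_zero q)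
  rw [Nat.factorization_mul hq.ne_zero hk0, Finsupp.add_apply,
    hq.factorization_self, Nat.factorization_eq_zero_of_not_dvd hk]

/-- In a progression some multiple has the value one. -/
theorem exists_progression {p : ℕ} [Fact p.Prime] {χ : MulChar (ZMod p) ℂ} {ℓ : ℕ} (hℓ : ℓ.Prime)
    (hχ : χ ≠ 1) (hχℓ : χ ^ ℓ = 1) {q k₀ M J : ℕ} (hJ : 0 < J) (hM : (M : ZMod p) ≠ 0)
    (hunit : ∀ j ∈ Ioc 0 J, ((q * (k₀ + M * j) : ℕ) : ZMod p) ≠ 0) {e : ℝ} (he : ℓ * e < 1)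
    (hsave : ∀ ψ : MulChar (ZMod p) ℂ, ψ ≠ 1 → ∀ K, ‖windowSumC ψ K J‖ ≤ J * e) :
    ∃ j ∈ Ioc 0 J, χ ((q * (k₀ + M * j) : ℕ) : ZMod p) = 1 := by
  by_contra hcon
  push Not at hcon
  have hord : orderOf χ = ℓ := by
    have := Fact.mk hℓ
    exact orderOf_eq_prime hχℓ hχ
  have hzero : ∀ j ∈ Ioc 0 J,
      ∑ i ∈ range ℓ, χ ((q * (k₀ + M * j) : ℕ) : ZMod p) ^ i = 0 := fun j hj => by
    have h1 : χ ((q * (k₀ + M * j) : ℕ) : ZMod p) ^ ℓ = 1 := by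
      rw [← MulChar.pow_apply' χ hℓ.ne_zero, hχℓ, MulChar.one_apply (Ne.isUnit (hunit j hj))]
    rw [geom_sum_eq (hcon j hj), h1, sub_self, zero_div]
  have hterm : ∀ i ∈ Ico 1 ℓ,
      ‖∑ j ∈ Ioc 0 J, χ ((q * (k₀ + M * j) : ℕ) : ZMod p) ^ i‖ ≤ J * e := by
    intro i hi
    rw [mem_Ico] at hi
    obtain ⟨ψ, hψ⟩ : ∃ ψ, ψ = χ ^ i := ⟨_, rfl⟩
    have hψ1 : ψ ≠ 1 := hψ ▸ fun h => by
      have := Nat.le_of_dvd (by omega) (hord ▸ orderOf_dvd_of_pow_eq_one h)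
      omega
    obtain ⟨M₀, hM₀⟩ : ∃ M₀ : ℕ, M₀ = ((M : ZMod p)⁻¹ * (k₀ : ZMod p)).val := ⟨_, rfl⟩
    have hsum : ∑ j ∈ Ioc 0 J, χ ((q * (k₀ + M * j) : ℕ) : ZMod p) ^ i =
        ψ ((q * M : ℕ) : ZMod p) * windowSumC ψ M₀ J := by
      have h := windowSumC_shift (χ := ψ) 0 J M₀
      simp only [zero_add] at h
      rw [← h, mul_sum]
      refine sum_congr rfl fun j _ => ?_
      rw [← MulChar.pow_apply' χ (by omega), ← hψ, ← map_mul, hM₀]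
      congr 1
      push_cast
      rw [ZMod.natCast_zmod_val]
      field_simp
      ring
    rw [hsum, norm_mul]
    exact (mul_le_of_le_one_left (norm_nonneg _) (CharacterSums.norm_mulChar_le ψ _)).trans
      (hsave ψ hψ1 M₀)
  have h0 : (J : ℂ) + ∑ i ∈ Ico 1 ℓ, ∑ j ∈ Ioc 0 J,
      χ ((q * (k₀ + M * j) : ℕ) : ZMod p) ^ i = 0 := by
    have h := sum_eq_zero hzero
    rw [sum_comm, range_eq_Ico, sum_eq_sum_Ico_succ_bot hℓ.pos] at h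
    simpa using h
  have h1 : (J : ℝ) ≤ ∑ i ∈ Ico 1 ℓ, (J : ℝ) * e := by
    refine le_trans (le_of_eq ?_) (norm_sum_le_of_le _ hterm)
    rw [← Complex.norm_natCast J, eq_neg_of_add_eq_zero_left h0, norm_neg]
  rw [sum_const, Nat.card_Ico, nsmul_eq_mul] at h1
  have he0 : 0 ≤ e := by
    have h := (norm_nonneg _).trans (hsave χ hχ 0)
    exact nonneg_of_mul_nonneg_right h (Nat.cast_pos.2 hJ)
  have h2 : ((ℓ - 1 : ℕ) : ℝ) * ((J : ℝ) * e) ≤ (ℓ : ℝ) * ((J : ℝ) * e) :=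
    mul_le_mul_of_nonneg_right (Nat.cast_le.2 (Nat.sub_le ℓ 1)) (by positivity)
  have h3 := mul_lt_mul_of_pos_left he (Nat.cast_pos (α := ℝ).2 hJ)
  linarith

/-- **The splitting.** -/
theorem eventually_exists_split {ℓ : ℕ} (hℓ : ℓ.Prime) :
    ∀ᶠ p : ℕ in atTop, ∀ [Fact p.Prime] (χ : MulChar (ZMod p) ℂ), χ ≠ 1 → χ ^ ℓ = 1 →
      ∃ a q₁ q₂ : ℕ, q₁.Prime ∧ q₂.Prime ∧ q₁ < p ∧ q₂ < p ∧ χ (q₁ : ZMod p) ≠ 1 ∧
        χ (q₂ : ZMod p) ≠ 1 ∧ 0 < a ∧ a < p ∧ χ (a : ZMod p) = 1 ∧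
        a.factorization q₁ = 1 ∧ (p - a).factorization q₂ = 1 := by
  obtain ⟨κ, hκ, hsave⟩ := eventually_norm_windowSumC_le (show (0 : ℝ) < 1 / 10 by norm_num)
  have hpow : ∀ᶠ p : ℕ in atTop, (p : ℝ) ^ (-κ) < 1 / ℓ :=
    ((tendsto_rpow_neg_atTop hκ).comp tendsto_natCast_atTop_atTop).eventually
      (eventually_lt_nhds (by have := hℓ.pos; positivity))
  have hbig : ∀ᶠ p : ℕ in atTop, (3 : ℝ) ≤ (p : ℝ) ^ ((1 : ℝ) / 100) :=
    ((tendsto_rpow_atTop (by norm_num)).comp tendsto_natCast_atTop_atTop).eventually_ge_atTop _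
  filter_upwards [hsave, hpow, hbig,
    eventually_two_nonresidues (show (0 : ℝ) < 1 / 200 by norm_num)]
    with p hsave hpow hbig htwo
  intro _ χ hχ hχℓ
  obtain ⟨q₁, q₂, h₁, h₂, hne, hl₁, hl₂, hb₁, hb₂, hc₁, hc₂⟩ := htwo χ hχ
  have hpp := (Fact.out : p.Prime)
  have hp1 : (1 : ℝ) ≤ p := Nat.one_le_cast.2 hpp.one_lt.le
  have hp0 : (0 : ℝ) < p := by linarith
  have hcop : Nat.Coprime q₁ (q₂ ^ 2) := ((Nat.coprime_primes h₁ h₂).2 hne).pow_right 2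
  obtain ⟨r, hr⟩ : ∃ r : ℕ, r = ((q₁ : ZMod (q₂ ^ 2))⁻¹ * ((p + q₂ : ℕ) : ZMod (q₂ ^ 2))).val :=
    ⟨_, rfl⟩
  obtain ⟨k₀, hk₀⟩ : ∃ k₀ : ℕ, k₀ = (Nat.chineseRemainder hcop 1 r : ℕ) := ⟨_, rfl⟩
  obtain ⟨hk1, hk2⟩ := (Nat.chineseRemainder hcop 1 r).2
  rw [← hk₀] at hk1 hk2
  obtain ⟨M, hM⟩ : ∃ M, M = q₁ * q₂ ^ 2 := ⟨_, rfl⟩
  have hk₀M : k₀ < M := by
    rw [hk₀, hM]
    exact Nat.chineseRemainder_lt_mul hcop 1 r h₁.ne_zero (pow_ne_zero 2 h₂.ne_zero)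
  have hx : ((q₁ * M : ℕ) : ℝ) ≤ (p : ℝ) ^ ((64 : ℝ) / 100) := by
    have hb : ∀ z : ℕ, (z : ℝ) ≤ (p : ℝ) ^ (1 / (4 * Real.sqrt (Real.exp 1)) + 1 / 200) →
        (z : ℝ) ≤ (p : ℝ) ^ ((16 : ℝ) / 100) := fun z hz => hz.trans
      (Real.rpow_le_rpow_of_exponent_le hp1 (by linarith [inv_four_sqrt_exp_lt]))
    rw [hM, show ((q₁ * (q₁ * q₂ ^ 2) : ℕ) : ℝ) = ((q₁ : ℝ) * q₁) * ((q₂ : ℝ) * q₂) by
      push_cast; ring]
    refine (mul_le_mul (mul_le_mul (hb _ hb₁) (hb _ hb₁) (Nat.cast_nonneg _) (by positivity))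
      (mul_le_mul (hb _ hb₂) (hb _ hb₂) (Nat.cast_nonneg _) (by positivity)) (by positivity)
      (by positivity)).trans (le_of_eq ?_)
    rw [← Real.rpow_add hp0, ← Real.rpow_add hp0]
    norm_num
  have hM0 : 0 < M := hM ▸ Nat.mul_pos h₁.pos (pow_pos h₂.pos 2)
  have hqM0 : 0 < q₁ * M := Nat.mul_pos h₁.pos hM0
  obtain ⟨J, hJ⟩ : ∃ J, J = p / (q₁ * M) - 1 := ⟨_, rfl⟩
  have h36 : (p : ℝ) ^ ((36 : ℝ) / 100) - 1 ≤ ((p / (q₁ * M) : ℕ) : ℝ) := by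
    rw [← Nat.floor_div_eq_div (K := ℝ)]
    refine le_trans ?_ (sub_le_iff_le_add.2 (Nat.lt_floor_add_one _).le)
    gcongr
    rw [le_div_iff₀ (Nat.cast_pos.2 hqM0)]
    refine (mul_le_mul_of_nonneg_left hx (by positivity)).trans (le_of_eq ?_)
    rw [← Real.rpow_add hp0]
    norm_num
  have hP : (p : ℝ) ^ ((1 : ℝ) / 4 + 1 / 10) * 3 ≤ (p : ℝ) ^ ((36 : ℝ) / 100) := by
    refine (mul_le_mul_of_nonneg_left hbig (by positivity)).trans (le_of_eq ?_)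
    rw [← Real.rpow_add hp0]
    norm_num
  have hP1 : (1 : ℝ) ≤ (p : ℝ) ^ ((1 : ℝ) / 4 + 1 / 10) := Real.one_le_rpow hp1 (by norm_num)
  have hdiv1 : 1 ≤ p / (q₁ * M) := by
    rw [← Nat.one_le_cast (α := ℝ)]
    linarith
  have hJr : (p : ℝ) ^ ((1 : ℝ) / 4 + 1 / 10) ≤ J := by
    rw [hJ, Nat.cast_sub hdiv1, Nat.cast_one]
    linarith
  have hJ0 : 0 < J := by
    rw [← Nat.cast_pos (α := ℝ)]
    linarith
  have hlt : ∀ j ∈ Ioc 0 J, q₁ * (k₀ + M * j) < p := fun j hj => by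
    rw [mem_Ioc] at hj
    have h1 : k₀ + M * j < M * (J + 1) := by
      have := Nat.mul_le_mul_left M hj.2
      rw [mul_add, mul_one]
      omega
    refine lt_of_lt_of_le (Nat.mul_lt_mul_of_pos_left h1 h₁.pos) ?_
    rw [← mul_assoc, show J + 1 = p / (q₁ * M) by omega]
    exact Nat.mul_div_le p (q₁ * M)
  have hMp : (M : ZMod p) ≠ 0 := Burgess.natCast_ne_zero_of_lt hM0 <| by
    have h1 := hlt 1 (mem_Ioc.2 ⟨one_pos, hJ0⟩)
    have h2 := Nat.le_mul_of_pos_left (k₀ + M * 1) h₁.pos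
    omega
  obtain ⟨j, hj, hval⟩ := exists_progression hℓ hχ hχℓ hJ0 hMp
    (fun j hj => Burgess.natCast_ne_zero_of_lt (Nat.mul_pos h₁.pos (by
      have := Nat.mul_pos hM0 (mem_Ioc.1 hj).1
      omega)) (hlt j hj))
    (by rwa [lt_div_iff₀ (Nat.cast_pos.2 hℓ.pos), mul_comm] at hpow)
    (fun ψ hψ K => hsave ψ hψ K J hJr)
  refine ⟨q₁ * (k₀ + M * j), q₁, q₂, h₁, h₂, hl₁, hl₂, hc₁, hc₂, ?_, hlt j hj, hval, ?_, ?_⟩
  · exact Nat.mul_pos h₁.pos (by have := Nat.mul_pos hM0 (mem_Ioc.1 hj).1; omega)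
  · refine factorization_eq_one h₁ fun h => ?_
    rw [hM, mul_assoc, Nat.dvd_add_left (dvd_mul_right q₁ _)] at h
    rw [Nat.ModEq, Nat.mod_eq_zero_of_dvd h, Nat.one_mod_eq_one.2 h₁.ne_one] at hk1
    exact zero_ne_one hk1
  · obtain ⟨b, hb⟩ : ∃ b, b = p - q₁ * (k₀ + M * j) := ⟨_, rfl⟩
    rw [← hb]
    have hzero : ((b + q₂ : ℕ) : ZMod (q₂ ^ 2)) = 0 := by
      have h1 : ((q₁ * (k₀ + M * j) : ℕ) : ZMod (q₂ ^ 2)) = ((p + q₂ : ℕ) : ZMod (q₂ ^ 2)) := by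
        rw [← ZMod.natCast_eq_natCast_iff] at hk2
        have hMz : (M : ZMod (q₂ ^ 2)) = 0 := by
          rw [ZMod.natCast_eq_zero_iff]
          exact hM ▸ dvd_mul_left _ _
        have : NeZero (q₂ ^ 2) := ⟨pow_ne_zero 2 h₂.ne_zero⟩
        rw [Nat.cast_mul, Nat.cast_add k₀, Nat.cast_mul M, hMz, zero_mul, add_zero, hk2, hr,
          ZMod.natCast_zmod_val, ← mul_assoc, ZMod.coe_mul_inv_eq_one _ hcop, one_mul]
      rw [hb, Nat.cast_add, Nat.cast_sub (hlt j hj).le, h1, Nat.cast_add]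
      ring
    rw [ZMod.natCast_eq_zero_iff] at hzero
    obtain ⟨c, hc⟩ : q₂ ∣ b :=
      (Nat.dvd_add_left dvd_rfl).1 ((dvd_pow_self q₂ two_ne_zero).trans hzero)
    rw [hc]
    refine factorization_eq_one h₂ fun h => ?_
    have h2 : q₂ ^ 2 ∣ b := by rw [hc, sq]; exact Nat.mul_dvd_mul_left q₂ h
    have h3 := Nat.le_of_dvd h₂.pos ((Nat.dvd_add_right h2).1 hzero)
    rw [sq] at h3
    exact absurd (lt_mul_of_one_lt_left h₂.pos h₂.one_lt) (not_lt.2 h3)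

end FA.NormEuclideanCyclic

end
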