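import Fermat.Agent.NormEuclideanCyclic.Field
import Fermat.Agent.NormEuclideanCyclic.Split
import Fermat.Agent.CycloKummer.QuadraticSubfield
import Mathlib.NumberTheory.MulChar.Lemmas

/-!
# Heilbronn's theorem for prime conductor

Only finitely many subfields of degree `ℓ` of the fields `ℚ(ζ_p)` are norm-Euclidean, and only
finitely many real quadratic fields `ℚ(√p)`.
-/

set_option autoImplicit false
set_option linter.style.haveILetI false

noncomputable section

namespace FA.NormEuclideanCyclic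

open NumberField Filter IsCyclotomicExtension
open FA.ClassField (artHom artHom_surjective)
open FA.LenstraEuclid (IsNormEuclideanField)

variable {p : ℕ} [hp : Fact p.Prime]

/-- A character of order `ℓ` is one on the kernel of the Artin map. -/
theorem char_eq_one_of_artHom_eq_one (K : Type*) [Field K] [NumberField K]
    [IsCyclotomicExtension {p} ℚ K] [IsAbelianGalois ℚ K] (F : IntermediateField ℚ K)
    [IsGalois ℚ F] {ℓ : ℕ} (hℓ : ℓ.Prime) (hF : Module.finrank ℚ F = ℓ) (hℓp : ℓ ∣ p - 1)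
    {χ : MulChar (ZMod p) ℂ} (hχℓ : χ ^ ℓ = 1) {u : (ZMod p)ˣ} (hu : artHom p K F u = 1) :
    χ (u : ZMod p) = 1 := by
  have hcard : Nat.card (artHom p K F).ker = (p - 1) / ℓ := by
    have h := Subgroup.card_mul_index (artHom p K F).ker
    rw [Subgroup.index_ker, MonoidHom.range_eq_top.2 (artHom_surjective p K F), Subgroup.card_top,
      IsGalois.card_aut_eq_finrank, hF, Nat.card_eq_fintype_card (α := (ZMod p)ˣ),
      ZMod.card_units] at h
    rw [← h, Nat.mul_div_cancel _ hℓ.pos]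
  have hpow : (u : ZMod p) ^ ((p - 1) / ℓ) = 1 := by
    rw [← hcard]
    have h := congrArg (fun v : (artHom p K F).ker => ((v : (ZMod p)ˣ) : ZMod p))
      (pow_card_eq_one' (x := (⟨u, hu⟩ : (artHom p K F).ker)))
    simpa using h
  obtain ⟨w, hw⟩ := BurgessGeneral.exists_pow_eq_of_pow_div_eq_one u.ne_zero hℓp hpow
  have hw0 : w ≠ 0 := fun h => u.ne_zero (by rw [← hw, h, zero_pow hℓ.ne_zero])
  rw [← hw, map_pow, ← MulChar.pow_apply' χ hℓ.ne_zero, hχℓ, MulChar.one_apply (Ne.isUnit hw0)]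

/-- The kernel of a character of prime order consists of powers. -/
theorem exists_pow_eq_of_char_eq_one {ℓ : ℕ} (hℓ : ℓ.Prime) {χ : MulChar (ZMod p) ℂ} (hχ : χ ≠ 1)
    (hχℓ : χ ^ ℓ = 1) {a : ZMod p} (ha : a ≠ 0) (hval : χ a = 1) : ∃ x : ZMod p, x ^ ℓ = a := by
  obtain ⟨w, hw⟩ := IsCyclic.exists_generator (α := (ZMod p)ˣ)
  obtain ⟨k, hk⟩ := mem_powers_iff_mem_zpowers.2 (hw (Units.mk0 a ha))
  have hk' : w ^ k = Units.mk0 a ha := hk
  have hak : a = (w : ZMod p) ^ k := by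
    rw [← Units.val_pow_eq_pow_val, hk', Units.val_mk0]
  have hζℓ : χ (w : ZMod p) ^ ℓ = 1 := by
    rw [← MulChar.pow_apply' χ hℓ.ne_zero, hχℓ, MulChar.one_apply w.isUnit]
  have hζ1 : χ (w : ZMod p) ≠ 1 := fun h => hχ <| MulChar.ext fun v => by
    obtain ⟨i, hi⟩ := mem_powers_iff_mem_zpowers.2 (hw v)
    have hi' : w ^ i = v := hi
    rw [MulChar.one_apply_coe, ← hi', Units.val_pow_eq_pow_val, map_pow, h, one_pow]
  have hord : orderOf (χ (w : ZMod p)) = ℓ := by
    have := Fact.mk hℓ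
    exact orderOf_eq_prime hζℓ hζ1
  rw [hak, map_pow] at hval
  obtain ⟨j, rfl⟩ : ℓ ∣ k := hord ▸ orderOf_dvd_of_pow_eq_one hval
  exact ⟨(w : ZMod p) ^ j, by rw [hak, ← pow_mul, mul_comm j]⟩

/-- **Heilbronn's theorem for prime conductor.** -/
theorem eventually_not_normEuclidean {ℓ : ℕ} (hℓ : ℓ.Prime) :
    ∀ᶠ p : ℕ in atTop, p.Prime → ∀ F : IntermediateField ℚ (CyclotomicField p ℚ),
      Module.finrank ℚ F = ℓ → ¬ IsNormEuclideanField F := by
  filter_upwards [eventually_exists_split hℓ] with p hsplit hp F hF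
  have := Fact.mk hp
  haveI : NeZero p := ⟨hp.ne_zero⟩
  haveI : IsCyclotomicExtension {p} ℚ (CyclotomicField p ℚ) :=
    CyclotomicField.isCyclotomicExtension p ℚ
  haveI : IsAbelianGalois ℚ (CyclotomicField p ℚ) :=
    IsCyclotomicExtension.isAbelianGalois {p} ℚ (CyclotomicField p ℚ)
  haveI : IsAbelianGalois ℚ F := IsAbelianGalois.tower_bot ℚ F (CyclotomicField p ℚ)
  have hℓp : ℓ ∣ p - 1 := by
    have h := Subgroup.card_dvd_of_surjective _ (artHom_surjective p (CyclotomicField p ℚ) F)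
    rwa [IsGalois.card_aut_eq_finrank, hF, Nat.card_eq_fintype_card, ZMod.card_units] at h
  obtain ⟨χ, hord⟩ := MulChar.exists_mulChar_orderOf (ZMod p)
    (show ℓ ∣ Fintype.card (ZMod p) - 1 by rwa [ZMod.card])
    (Complex.isPrimitiveRoot_exp ℓ hℓ.ne_zero)
  have hχ : χ ≠ 1 := fun h => hℓ.ne_one (by rw [← hord, h, orderOf_one])
  have hχℓ : χ ^ ℓ = 1 := hord ▸ pow_orderOf_eq_one χ
  obtain ⟨a, q₁, q₂, h₁, h₂, hl₁, hl₂, hc₁, hc₂, ha, hap, hval, hv₁, hv₂⟩ := hsplit χ hχ hχℓ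
  have := Fact.mk h₁
  have := Fact.mk h₂
  obtain ⟨x, hx⟩ := exists_pow_eq_of_char_eq_one hℓ hχ hχℓ
    (Burgess.natCast_ne_zero_of_lt ha hap) hval
  have hcop₁ : q₁.Coprime p := (Nat.coprime_primes h₁ hp).2 (Nat.ne_of_lt hl₁)
  have hcop₂ : q₂.Coprime p := (Nat.coprime_primes h₂ hp).2 (Nat.ne_of_lt hl₂)
  refine not_isNormEuclideanField (CyclotomicField p ℚ) F hℓ hF ha hap
    (n := x.val) (by rw [ZMod.natCast_zmod_val, hx]) hcop₁ hcop₂ (fun h => hc₁ ?_)
    (fun h => hc₂ ?_) hv₁ hv₂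
  · have := char_eq_one_of_artHom_eq_one _ F hℓ hF hℓp hχℓ h
    rwa [ZMod.coe_unitOfCoprime] at this
  · have := char_eq_one_of_artHom_eq_one _ F hℓ hF hℓp hχℓ h
    rwa [ZMod.coe_unitOfCoprime] at this

/-- The fields exist. -/
theorem exists_subfield_of_dvd {ℓ : ℕ} (hℓp : ℓ ∣ p - 1) :
    ∃ F : IntermediateField ℚ (CyclotomicField p ℚ), Module.finrank ℚ F = ℓ := by
  haveI : NeZero p := ⟨hp.out.ne_zero⟩
  haveI : IsCyclotomicExtension {p} ℚ (CyclotomicField p ℚ) :=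
    CyclotomicField.isCyclotomicExtension p ℚ
  haveI : IsGalois ℚ (CyclotomicField p ℚ) := IsCyclotomicExtension.isGalois {p} ℚ _
  have hG : Nat.card Gal((CyclotomicField p ℚ)/ℚ) = p - 1 := by
    rw [Nat.card_congr (Rat.galEquivZMod p (CyclotomicField p ℚ)).toEquiv,
      Nat.card_eq_fintype_card, ZMod.card_units]
  haveI : IsCyclic Gal((CyclotomicField p ℚ)/ℚ) :=
    isCyclic_of_surjective (Rat.galEquivZMod p (CyclotomicField p ℚ)).symm.toMonoidHom
      (MulEquiv.surjective _)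
  obtain ⟨g, hg⟩ := IsCyclic.exists_generator (α := Gal((CyclotomicField p ℚ)/ℚ))
  have hgo : orderOf g = p - 1 := hG ▸ orderOf_eq_card_of_forall_mem_zpowers hg
  obtain ⟨e, he⟩ := hℓp
  have hp1 : 0 < ℓ * e := he ▸ Nat.sub_pos_of_lt hp.out.one_lt
  refine ⟨IntermediateField.fixedField (Subgroup.zpowers (g ^ ℓ)), ?_⟩
  have hmul := Module.finrank_mul_finrank ℚ
    (IntermediateField.fixedField (Subgroup.zpowers (g ^ ℓ))) (CyclotomicField p ℚ)
  rw [IntermediateField.finrank_fixedField_eq_card, Nat.card_zpowers,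
    orderOf_pow' g (Nat.pos_of_mul_pos_right hp1).ne', hgo,
    ← IsGalois.card_aut_eq_finrank ℚ (CyclotomicField p ℚ),
    hG, he, Nat.gcd_mul_right_left, Nat.mul_div_cancel_left _ (Nat.pos_of_mul_pos_right hp1)]
    at hmul
  exact Nat.eq_of_mul_eq_mul_right (Nat.pos_of_mul_pos_left hp1) hmul

/-- Non-vacuity. -/
theorem infinite_not_normEuclidean {ℓ : ℕ} (hℓ : ℓ.Prime) :
    {p : ℕ | p.Prime ∧ ∃ F : IntermediateField ℚ (CyclotomicField p ℚ),
      Module.finrank ℚ F = ℓ ∧ ¬ IsNormEuclideanField F}.Infinite := by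
  obtain ⟨N, hN⟩ := eventually_atTop.1 (eventually_not_normEuclidean hℓ)
  refine Set.infinite_of_forall_exists_gt fun m => ?_
  obtain ⟨p, hp, hgt, hmod⟩ := Nat.exists_prime_gt_modEq_one (max m N) hℓ.ne_zero
  have := Fact.mk hp
  obtain ⟨F, hF⟩ := exists_subfield_of_dvd (p := p) (ℓ := ℓ)
    ((Nat.modEq_iff_dvd' hp.one_lt.le).1 hmod.symm)
  exact ⟨p, ⟨hp, F, hF, hN p (le_of_lt (lt_of_le_of_lt (le_max_right _ _) hgt)) hp F hF⟩,
    lt_of_le_of_lt (le_max_left _ _) hgt⟩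

theorem isNormEuclideanField_congr {L M : Type*} [Field L] [NumberField L] [Field M] [NumberField M]
    (e : L ≃ₐ[ℚ] M) (h : IsNormEuclideanField L) : IsNormEuclideanField M := fun y => by
  obtain ⟨c, hc⟩ := h (e.symm y)
  refine ⟨RingOfIntegers.mapRingEquiv e.toRingEquiv c, ?_⟩
  rw [← Algebra.norm_eq_of_algEquiv e] at hc
  rwa [map_sub, AlgEquiv.apply_symm_apply] at hc

/-- **Real quadratic fields of prime discriminant.** -/
theorem eventually_quadratic_not_normEuclidean :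
    ∀ᶠ p : ℕ in atTop, p.Prime → p % 4 = 1 → ∀ (L : Type) [Field L] [NumberField L],
      Module.finrank ℚ L = 2 → (∃ s : L, s ^ 2 = (p : L)) → ¬ IsNormEuclideanField L := by
  filter_upwards [eventually_not_normEuclidean Nat.prime_two] with p h hp h4 L _ _ hL hs hE
  have := Fact.mk hp
  haveI : NeZero p := ⟨hp.ne_zero⟩
  haveI : IsCyclotomicExtension {p} ℚ (CyclotomicField p ℚ) :=
    CyclotomicField.isCyclotomicExtension p ℚ
  obtain ⟨s, hs⟩ := hs
  obtain ⟨f⟩ := CycloKummer.nonempty_ringHom_of_sq_eq_pStar p (by omega) (CyclotomicField p ℚ) L hL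
    (r := s) (by rw [hs, Even.neg_one_pow ⟨p / 4, by omega⟩, one_mul])
  have g : L →ₐ[ℚ] CyclotomicField p ℚ := f.toRatAlgHom
  have e := AlgEquiv.ofInjectiveField g
  refine h hp g.fieldRange ?_ (isNormEuclideanField_congr e hE)
  rw [← hL]
  exact e.toLinearEquiv.finrank_eq.symm

end FA.NormEuclideanCyclic

end
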