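import Fermat.Agent.BurgessApplications.Nonresidue
import Mathlib.NumberTheory.Chebyshev

/-!
# Two small non-residues of a character

For every nonprincipal character modulo a large prime `p` two distinct primes
`≤ p ^ (1/(4√e) + η)` have `χ ≠ 1`: Vinogradov's trick on the numbers prime to the first one.
-/

set_option autoImplicit false

noncomputable section

namespace FA.NormEuclideanCyclic

open Finset Filter FA.BurgessGeneral
open scoped Topology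

variable {p : ℕ} [Fact p.Prime] {χ : MulChar (ZMod p) ℂ}

theorem apply_eq_one_of_smooth_avoiding {y q : ℕ}
    (hres : ∀ l : ℕ, l.Prime → l ≤ y → l ≠ q → χ (l : ZMod p) = 1) {n : ℕ} (hn : 0 < n)
    (hq : ¬ q ∣ n) (hs : ∀ l : ℕ, l.Prime → l ∣ n → l ≤ y) : χ (n : ZMod p) = 1 := by
  induction n using Nat.strong_induction_on with
  | _ n ih =>
    rcases eq_or_ne n 1 with rfl | h1
    · simp
    obtain ⟨l, hl, m, rfl⟩ := Nat.exists_prime_and_dvd h1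
    have hm : 0 < m := Nat.pos_of_mul_pos_left hn
    rw [Nat.cast_mul, map_mul, hres l hl (hs l hl (dvd_mul_right l m))
        (fun h => hq (h ▸ dvd_mul_right l m)),
      ih m (lt_mul_of_one_lt_left hm hl.one_lt) hm (fun h => hq (h.mul_left l))
        fun k hk hd => hs k hk (hd.mul_left l),
      one_mul]

/-- The window without the multiples of `q`. -/
theorem sum_avoiding_eq {q : ℕ} (hq : 0 < q) (N : ℕ) :
    ∑ n ∈ (Ioc 0 N).filter (¬ q ∣ ·), χ (n : ZMod p) =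
      windowSumC χ 0 N - χ (q : ZMod p) * windowSumC χ 0 (N / q) := by
  rw [eq_sub_iff_add_eq, windowSumC, windowSumC, zero_add, zero_add, mul_sum]
  have h : (Ioc 0 N).filter (q ∣ ·) = (Ioc 0 (N / q)).image (q * ·) := by
    ext n
    simp only [mem_filter, mem_Ioc, mem_image]
    constructor
    · rintro ⟨⟨h1, h2⟩, j, rfl⟩
      exact ⟨j, ⟨Nat.pos_of_mul_pos_left h1,
        (Nat.le_div_iff_mul_le hq).2 (by rw [mul_comm]; exact h2)⟩, rfl⟩
    · rintro ⟨j, ⟨h1, h2⟩, rfl⟩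
      refine ⟨⟨Nat.mul_pos hq h1, ?_⟩, dvd_mul_right q j⟩
      rw [mul_comm]
      exact (Nat.le_div_iff_mul_le hq).1 h2
  have h2 : ∑ j ∈ Ioc 0 (N / q), χ (q : ZMod p) * χ (j : ZMod p) =
      ∑ n ∈ (Ioc 0 N).filter (q ∣ ·), χ (n : ZMod p) := by
    rw [h, sum_image fun a _ b _ e => Nat.eq_of_mul_eq_mul_left hq e]
    exact sum_congr rfl fun j _ => by rw [Nat.cast_mul, map_mul]
  rw [h2, add_comm]
  exact sum_filter_add_sum_filter_not _ _ _

/-- Vinogradov's trick on the numbers prime to `q`. -/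
theorem le_re_sum_avoiding {y q : ℕ} (hq : q.Prime) (hqy : q ≤ y) (N : ℕ)
    (hres : ∀ l : ℕ, l.Prime → l ≤ y → l ≠ q → χ (l : ZMod p) = 1) :
    (N : ℝ) * (1 - (q : ℝ)⁻¹) *
        (1 - 2 * ∑ l ∈ (Ioc y N).filter Nat.Prime, ((l : ℕ) : ℝ)⁻¹) -
          2 * ((Ioc y N).filter Nat.Prime).card ≤
      (∑ n ∈ (Ioc 0 N).filter (¬ q ∣ ·), χ (n : ZMod p)).re := by
  classical
  obtain ⟨T, hT⟩ : ∃ T, T = (Ioc 0 N).filter (¬ q ∣ ·) := ⟨_, rfl⟩
  obtain ⟨R, hR⟩ : ∃ R, R = (Ioc y N).filter Nat.Prime := ⟨_, rfl⟩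
  rw [← hT, ← hR, Complex.re_sum]
  have hsum : ∀ n ∈ T, 1 - 2 * ((R.filter (· ∣ n)).card : ℝ) ≤ (χ (n : ZMod p)).re := by
    intro n hn
    rw [hT, mem_filter, mem_Ioc] at hn
    rcases Nat.eq_zero_or_pos (R.filter (· ∣ n)).card with h | h
    · rw [h, Nat.cast_zero, mul_zero, sub_zero,
        apply_eq_one_of_smooth_avoiding hres hn.1.1 hn.2 fun l hl hd => ?_, Complex.one_re]
      by_contra hly
      exact Finset.notMem_empty l (card_eq_zero.1 h ▸ mem_filter.2 ⟨hR ▸ mem_filter.2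
        ⟨mem_Ioc.2 ⟨not_le.1 hly, (Nat.le_of_dvd hn.1.1 hd).trans hn.1.2⟩, hl⟩, hd⟩)
    · have h1 : (1 : ℝ) ≤ ((R.filter (· ∣ n)).card : ℕ) := Nat.one_le_cast.2 h
      linarith [(abs_le.1 ((Complex.abs_re_le_norm _).trans
        (CharacterSums.norm_mulChar_le χ (n : ZMod p)))).1]
  refine le_trans ?_ (sum_le_sum hsum)
  rw [sum_sub_distrib, sum_const, nsmul_one, ← mul_sum]
  have hTc : (N : ℝ) * (1 - (q : ℝ)⁻¹) ≤ T.card := by
    have h1 : T.card + N / q = N := by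
      rw [hT, ← Nat.Ioc_filter_dvd_card_eq_div N q, add_comm, card_filter_add_card_filter_not,
        Nat.card_Ioc, Nat.sub_zero]
    have h2 : ((N / q : ℕ) : ℝ) ≤ N / q := Nat.cast_div_le
    have h1' : (T.card : ℝ) + ((N / q : ℕ) : ℝ) = N := by exact_mod_cast h1
    rw [div_eq_mul_inv] at h2
    linarith
  have hcount : (∑ n ∈ T, ((R.filter (· ∣ n)).card : ℝ)) ≤
      N * (1 - (q : ℝ)⁻¹) * (∑ l ∈ R, ((l : ℕ) : ℝ)⁻¹) + R.card := by
    rw [mul_sum, card_eq_sum_ones R, Nat.cast_sum, ← sum_add_distrib]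
    simp only [card_filter]
    push_cast
    rw [sum_comm]
    refine sum_le_sum fun l hl => ?_
    rw [hR, mem_filter, mem_Ioc] at hl
    have hlq : Nat.Coprime q l :=
      (Nat.coprime_primes hq hl.2).2 (fun h => by omega)
    rw [sum_boole]
    have h1 : (T.filter (l ∣ ·)).card + N / (q * l) = N / l := by
      rw [← Nat.Ioc_filter_dvd_card_eq_div N l, ← Nat.Ioc_filter_dvd_card_eq_div N (q * l), hT,
        filter_filter]
      rw [show (Ioc 0 N).filter (fun n => q * l ∣ n) =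
        ((Ioc 0 N).filter (l ∣ ·)).filter (q ∣ ·) by
          rw [filter_filter]
          refine filter_congr fun n _ => ⟨fun h => ⟨dvd_trans (dvd_mul_left l q) h,
            dvd_trans (dvd_mul_right q l) h⟩, fun h => hlq.mul_dvd_of_dvd_of_dvd h.2 h.1⟩]
      rw [show (Ioc 0 N).filter (fun n => ¬ q ∣ n ∧ l ∣ n) =
        ((Ioc 0 N).filter (l ∣ ·)).filter (fun n => ¬ q ∣ n) by
          rw [filter_filter]
          exact filter_congr fun n _ => and_comm]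
      rw [add_comm]
      exact card_filter_add_card_filter_not _
    have h1' : ((T.filter (l ∣ ·)).card : ℝ) + ((N / (q * l) : ℕ) : ℝ) = ((N / l : ℕ) : ℝ) := by
      exact_mod_cast h1
    have h2 : ((N / l : ℕ) : ℝ) ≤ N / l := Nat.cast_div_le
    have h3 : (N : ℝ) / ((q * l : ℕ) : ℝ) < ((N / (q * l) : ℕ) : ℝ) + 1 := by
      rw [← Nat.floor_div_eq_div (K := ℝ)]
      exact Nat.lt_floor_add_one _
    have e : (N : ℝ) * (1 - (q : ℝ)⁻¹) * (l : ℝ)⁻¹ = N / l - N / ((q * l : ℕ) : ℝ) := by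
      push_cast
      ring
    rw [e]
    linarith
  linarith

/-- **Two small non-residues.** -/
theorem eventually_two_nonresidues {η : ℝ} (hη : 0 < η) :
    ∀ᶠ p : ℕ in atTop, ∀ [Fact p.Prime] (χ : MulChar (ZMod p) ℂ), χ ≠ 1 →
      ∃ q₁ q₂ : ℕ, q₁.Prime ∧ q₂.Prime ∧ q₁ ≠ q₂ ∧ q₁ < p ∧ q₂ < p ∧
        (q₁ : ℝ) ≤ (p : ℝ) ^ (1 / (4 * Real.sqrt (Real.exp 1)) + η) ∧
        (q₂ : ℝ) ≤ (p : ℝ) ^ (1 / (4 * Real.sqrt (Real.exp 1)) + η) ∧
        χ (q₁ : ZMod p) ≠ 1 ∧ χ (q₂ : ZMod p) ≠ 1 := by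
  obtain ⟨η', hη', hη1, hle⟩ : ∃ η', 0 < η' ∧ η' ≤ 1 / 2 ∧ η' ≤ η :=
    ⟨min η (1 / 2), lt_min hη one_half_pos, min_le_right _ _, min_le_left _ _⟩
  obtain ⟨θ, hθ⟩ : ∃ θ, θ = 1 / (4 * Real.sqrt (Real.exp 1)) + η' := ⟨_, rfl⟩
  have hθ0 : 0 ≤ θ := hθ ▸ by positivity
  have hθ1 : θ < 1 := by
    have h : 1 < Real.sqrt (Real.exp 1) := Real.lt_sqrt_of_sq_lt (by simp)
    have : 1 / (4 * Real.sqrt (Real.exp 1)) < 1 / 4 :=
      one_div_lt_one_div_of_lt (by norm_num) (by linarith)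
    linarith
  obtain ⟨t, ht, hsum⟩ := FA.BurgessApplications.eventually_sum_inv_prime_lt_half hη'
  obtain ⟨κ, hκ, hsave⟩ := eventually_norm_windowSumC_le (show 0 < η' / 6 by linarith)
  obtain ⟨u, hu⟩ : ∃ u, u = (1 - 2 * t) / 16 := ⟨_, rfl⟩
  have hu0 : 0 < u := hu ▸ div_pos (by linarith) (by norm_num)
  have hpow : ∀ᶠ p : ℕ in atTop, (p : ℝ) ^ (-κ) ≤ u :=
    ((tendsto_rpow_neg_atTop hκ).comp tendsto_natCast_atTop_atTop).eventually
      (eventually_le_nhds hu0)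
  have hpow' : ∀ᶠ p : ℕ in atTop, (p : ℝ) ^ (-(η' / 6)) ≤ u :=
    ((tendsto_rpow_neg_atTop (show 0 < η' / 6 by linarith)).comp
      tendsto_natCast_atTop_atTop).eventually (eventually_le_nhds hu0)
  have hNtop : Tendsto (fun p : ℕ => (⌈(p : ℝ) ^ (1 / 4 + η' / 3)⌉₊ : ℝ)) atTop atTop :=
    tendsto_atTop_mono (fun p => Nat.le_ceil _)
      ((tendsto_rpow_atTop (by linarith)).comp tendsto_natCast_atTop_atTop)
  have hpi : ∀ᶠ p : ℕ in atTop, (Nat.primeCounting ⌈(p : ℝ) ^ (1 / 4 + η' / 3)⌉₊ : ℝ) ≤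
      u * (⌈(p : ℝ) ^ (1 / 4 + η' / 3)⌉₊ : ℝ) := by
    filter_upwards [hNtop.eventually (Chebyshev.eventually_primeCounting_le one_pos),
      hNtop.eventually_gt_atTop 1,
      (Real.tendsto_log_atTop.comp hNtop).eventually_ge_atTop ((Real.log 4 + 1) / u)]
      with p h1 h2 h3
    rw [Nat.floor_natCast] at h1
    refine h1.trans ?_
    simp only [Function.comp] at h3
    rw [div_le_iff₀ hu0] at h3
    rw [div_le_iff₀ (Real.log_pos h2)]
    have := mul_le_mul_of_nonneg_right h3 (zero_le_one.trans h2.le)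
    linarith
  filter_upwards [hsum, hsave, hpow, hpow', hpi, eventually_ge_atTop 2,
    FA.BurgessApplications.eventually_least_nonresidue_char hη']
    with p hsum hsave hpow hpow' hpi hp2 hfirst
  intro _ χ hχ
  obtain ⟨q, hq, hqθ, hqp, hne⟩ := hfirst χ hχ
  have hp1 : (1 : ℝ) ≤ p := Nat.one_le_cast.2 (by omega)
  have hp0 : (0 : ℝ) < p := by linarith
  rw [← hθ] at hsum hqθ
  have hle' : (p : ℝ) ^ θ ≤ (p : ℝ) ^ (1 / (4 * Real.sqrt (Real.exp 1)) + η) :=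
    Real.rpow_le_rpow_of_exponent_le hp1 (by linarith)
  obtain ⟨y, hy⟩ : ∃ y, y = ⌊(p : ℝ) ^ θ⌋₊ := ⟨_, rfl⟩
  have hqy : q ≤ y := hy ▸ Nat.le_floor hqθ
  have hyle : (y : ℝ) ≤ (p : ℝ) ^ θ := hy ▸ Nat.floor_le (by positivity)
  have hyp : (p : ℝ) ^ θ < p := by
    conv_rhs => rw [← Real.rpow_one (p : ℝ)]
    exact Real.rpow_lt_rpow_of_exponent_lt (Nat.one_lt_cast.2 hp2) hθ1
  by_cases hex : ∃ l : ℕ, l.Prime ∧ l ≤ y ∧ l ≠ q ∧ χ (l : ZMod p) ≠ 1
  · obtain ⟨l, hl, hly, hlq, hlne⟩ := hex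
    have hlθ : (l : ℝ) ≤ (p : ℝ) ^ θ := (Nat.cast_le.2 hly).trans hyle
    exact ⟨q, l, hq, hl, hlq.symm, hqp, by exact_mod_cast hlθ.trans_lt hyp, hqθ.trans hle',
      hlθ.trans hle', hne, hlne⟩
  exfalso
  push Not at hex
  obtain ⟨N, hN⟩ : ∃ N, N = ⌈(p : ℝ) ^ (1 / 4 + η' / 3)⌉₊ := ⟨_, rfl⟩
  rw [← hy, ← hN] at hsum
  rw [← hN] at hpi
  have hNle : (p : ℝ) ^ (1 / 4 + η' / 3) ≤ N := hN ▸ Nat.le_ceil _
  have hN0 : (0 : ℝ) < N := lt_of_lt_of_le (Real.rpow_pos_of_pos hp0 _) hNle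
  have hsmall : (p : ℝ) ^ (1 / 4 + η' / 6) ≤ u * N := by
    refine le_trans (le_of_eq ?_) (mul_le_mul hpow' hNle (by positivity) hu0.le)
    rw [← Real.rpow_add hp0]
    congr 1
    ring
  have hW : ∀ K : ℕ, K ≤ N → ‖windowSumC χ 0 K‖ ≤ 2 * (u * N) := fun K hK => by
    have hKN : (K : ℝ) ≤ N := Nat.cast_le.2 hK
    rcases le_total ((p : ℝ) ^ (1 / 4 + η' / 6)) K with h | h
    · have := mul_le_mul hKN hpow (by positivity) hN0.le
      linarith [hsave χ hχ 0 K h, mul_pos hu0 hN0]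
    · linarith [norm_windowSumC_le (χ := χ) 0 K, mul_pos hu0 hN0]
  have hlow := le_re_sum_avoiding hq hqy N fun l hl hly hlq => hex l hl hly hlq
  rw [sum_avoiding_eq hq.pos] at hlow
  have hup : (windowSumC χ 0 N - χ (q : ZMod p) * windowSumC χ 0 (N / q)).re ≤ 4 * (u * N) := by
    refine (Complex.re_le_norm _).trans ((norm_sub_le _ _).trans ?_)
    rw [norm_mul]
    have h1 := mul_le_of_le_one_left (norm_nonneg (windowSumC χ 0 (N / q)))
      (CharacterSums.norm_mulChar_le χ (q : ZMod p))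
    linarith [hW N le_rfl, hW (N / q) (Nat.div_le_self N q)]
  have hR : (((Ioc y N).filter Nat.Prime).card : ℝ) ≤ u * N := by
    refine le_trans (Nat.cast_le.2 ?_) hpi
    rw [Nat.primeCounting, Nat.primeCounting', Nat.count_eq_card_filter_range]
    refine card_le_card fun l hl => ?_
    rw [mem_filter, mem_Ioc] at hl
    exact mem_filter.2 ⟨mem_range.2 (by omega), hl.2⟩
  have hq2 : (1 : ℝ) / 2 ≤ 1 - (q : ℝ)⁻¹ := by
    have : (q : ℝ)⁻¹ ≤ 2⁻¹ := inv_anti₀ two_pos (Nat.ofNat_le_cast.2 hq.two_le)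
    linarith
  have h1 := mul_le_mul_of_nonneg_left hsum
    (show 0 ≤ (N : ℝ) * (1 - (q : ℝ)⁻¹) by positivity)
  have h2 := mul_le_mul_of_nonneg_right (mul_le_mul_of_nonneg_left hq2 hN0.le)
    (show 0 ≤ 1 - 2 * t by linarith)
  have h3 : 1 - 2 * t = 16 * u := by rw [hu]; ring
  have h4 := mul_pos hu0 hN0
  rw [h3] at h2
  have h5 : (N : ℝ) * (1 - (q : ℝ)⁻¹) * (1 - 2 * t) = (N : ℝ) * (1 - (q : ℝ)⁻¹) * (16 * u) := by
    rw [h3]
  linarith

end FA.NormEuclideanCyclic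

end
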